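/-
Cell A2, piece M4 (abstract part), helper612.  Mathlib-only.

`α : C →+* B` integral, `P` a prime of `B`, `C ⧸ (P ∩ C)` an integrally closed domain and
"residue degree one" (`∀ b, ∃ c d, d ∉ P, d * b - c ∈ P`)  ⇒  `C → B ⧸ P` is onto, so
`C ⧸ (P ∩ C) ≃+* B ⧸ P`.  This is the statement "the component `V(P)` of the special fibre of the
level-`N` model is the (smooth) special fibre of the level-`M` model".  The second component is
obtained by transport along an automorphism (`w_N`).

Main statements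
* `exists_map_eq_of_integral_of_mul_eq` : field-free core.
* `exists_sub_mem_of_residue_degree_one` : `∀ b, ∃ c, b - α c ∈ P`.
* `quotientMap_bijective_of_residue_degree_one`, `quotientEquivOfResidueDegreeOne`.
* `exists_sub_mem_of_transport` : the same for `β = w ∘ α ∘ w'` and `Q = w(P)`.
* `isDedekindDomain_quotient_of_residue_degree_one` : `B ⧸ P` is Dedekind if `C ⧸ (P ∩ C)` is.
* `exists_sub_mem_of_valuation_residue` : version where residue degree one is given on the
  level of a "residue map" `r : B → κ` with kernel `P` (as produced by valuations).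
-/
import Mathlib.RingTheory.IntegralClosure.IntegrallyClosed
import Mathlib.RingTheory.Polynomial.ScaleRoots
import Mathlib.RingTheory.Ideal.Quotient.Operations
import Mathlib.RingTheory.Ideal.Maps
import Mathlib.RingTheory.Localization.FractionRing
import Mathlib.RingTheory.DedekindDomain.Basic

namespace Fermat.Agent.A2.H612

open Polynomial

/-- **M4, field-free core.**  `ι : C₀ →+* B₀` an injective ring hom of domains, `C₀` integrally
closed, `b` integral over `C₀` and `ι d * b = ι c` with `d ≠ 0`.  Then `b` is in the image. -/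
theorem exists_map_eq_of_integral_of_mul_eq
    {C₀ B₀ : Type*} [CommRing C₀] [IsDomain C₀] [IsIntegrallyClosed C₀]
    [CommRing B₀] [IsDomain B₀] (ι : C₀ →+* B₀) (hι : Function.Injective ι)
    {b : B₀} (hb : ι.IsIntegralElem b) {c d : C₀} (hd : d ≠ 0) (h : ι d * b = ι c) :
    ∃ c' : C₀, ι c' = b := by
  obtain ⟨p, hp, hpb⟩ := hb
  -- the scaled polynomial kills `c`
  have h1 : eval c (scaleRoots p d) = 0 := by
    apply hι
    rw [map_zero, ← Polynomial.eval₂_hom, ← h, scaleRoots_eval₂_mul, hpb, mul_zero]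
  -- hence `c / d` is integral over `C₀`
  set K := FractionRing C₀
  set f := algebraMap C₀ K
  have hfd : f d ≠ 0 := by
    intro h0
    exact hd ((IsFractionRing.injective C₀ K) (by rw [h0, map_zero]))
  have h2 : eval₂ f (f c / f d) p = 0 := by
    have h3 : eval₂ f (f d * (f c / f d)) (scaleRoots p d)
        = f d ^ p.natDegree * eval₂ f (f c / f d) p :=
      scaleRoots_eval₂_mul f (f c / f d) d
    rw [mul_div_cancel₀ _ hfd, Polynomial.eval₂_hom, h1, map_zero] at h3
    rcases mul_eq_zero.mp h3.symm with h4 | h4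
    · exact absurd h4 (pow_ne_zero _ hfd)
    · exact h4
  have h3 : IsIntegral C₀ (f c / f d) := ⟨p, hp, h2⟩
  obtain ⟨c', hc'⟩ := IsIntegrallyClosed.isIntegral_iff.mp h3
  refine ⟨c', ?_⟩
  have h4 : c = d * c' := by
    apply IsFractionRing.injective C₀ K
    rw [map_mul]
    change f c = f d * f c'
    have : f c' = f c / f d := hc'
    rw [this, mul_div_cancel₀ _ hfd]
  have h5 : ι d * b = ι d * ι c' := by rw [h, h4, map_mul]
  have h6 : ι d ≠ 0 := fun h0 => hd (hι (by rw [h0, map_zero]))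
  exact (mul_left_cancel₀ h6 h5).symm

section Quotient

variable {C B : Type*} [CommRing C] [CommRing B]

/-- **M4 (abstract).**  `α : C →+* B` integral, `P` prime, `C ⧸ P.comap α` integrally closed,
residue degree one.  Then every `b : B` is congruent mod `P` to an element of `α C`. -/
theorem exists_sub_mem_of_residue_degree_one
    (α : C →+* B) (hint : α.IsIntegral) (P : Ideal B) [P.IsPrime]
    [IsIntegrallyClosed (C ⧸ P.comap α)]
    (hdeg : ∀ b : B, ∃ c d : C, α d ∉ P ∧ α d * b - α c ∈ P) :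
    ∀ b : B, ∃ c : C, b - α c ∈ P := by
  intro b
  obtain ⟨c, d, hd, hcd⟩ := hdeg b
  set I : Ideal C := P.comap α
  let ι : C ⧸ I →+* B ⧸ P := Ideal.quotientMap P α le_rfl
  have hι : Function.Injective ι := Ideal.quotientMap_injective
  have hb : ι.IsIntegralElem (Ideal.Quotient.mk P b) := by
    obtain ⟨p, hp, hpb⟩ := hint b
    refine ⟨p.map (Ideal.Quotient.mk I), hp.map _, ?_⟩
    rw [Polynomial.eval₂_map]
    have : ι.comp (Ideal.Quotient.mk I) = (Ideal.Quotient.mk P).comp α := by
      ext x; simp [ι]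
    rw [this, ← Polynomial.hom_eval₂, hpb, map_zero]
  have hd' : (Ideal.Quotient.mk I d) ≠ 0 := by
    intro h0
    exact hd (by simpa [I, Ideal.mem_comap] using Ideal.Quotient.eq_zero_iff_mem.mp h0)
  have h : ι (Ideal.Quotient.mk I d) * Ideal.Quotient.mk P b = ι (Ideal.Quotient.mk I c) := by
    have h1 : ι (Ideal.Quotient.mk I d) = Ideal.Quotient.mk P (α d) := by simp [ι]
    have h2 : ι (Ideal.Quotient.mk I c) = Ideal.Quotient.mk P (α c) := by simp [ι]
    rw [h1, h2, ← map_mul]
    exact (Ideal.Quotient.eq).mpr hcd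
  obtain ⟨c', hc'⟩ := exists_map_eq_of_integral_of_mul_eq ι hι hb hd' h
  obtain ⟨c'', rfl⟩ := Ideal.Quotient.mk_surjective c'
  refine ⟨c'', ?_⟩
  have h1 : ι (Ideal.Quotient.mk I c'') = Ideal.Quotient.mk P (α c'') := by simp [ι]
  rw [h1] at hc'
  exact (Ideal.Quotient.eq).mp hc'.symm

/-- Under the hypotheses of M4 the induced map `C ⧸ (P ∩ C) → B ⧸ P` is bijective. -/
theorem quotientMap_bijective_of_residue_degree_one
    (α : C →+* B) (hint : α.IsIntegral) (P : Ideal B) [P.IsPrime]
    [IsIntegrallyClosed (C ⧸ P.comap α)]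
    (hdeg : ∀ b : B, ∃ c d : C, α d ∉ P ∧ α d * b - α c ∈ P) :
    Function.Bijective (Ideal.quotientMap P α (le_refl (P.comap α))) := by
  refine ⟨Ideal.quotientMap_injective, ?_⟩
  intro y
  obtain ⟨b, rfl⟩ := Ideal.Quotient.mk_surjective y
  obtain ⟨c, hc⟩ := exists_sub_mem_of_residue_degree_one α hint P hdeg b
  refine ⟨Ideal.Quotient.mk _ c, ?_⟩
  rw [Ideal.quotientMap_mk]
  exact ((Ideal.Quotient.eq).mpr hc).symm

/-- The component `B ⧸ P` is (canonically) the ring `C ⧸ (P ∩ C)`. -/
noncomputable def quotientEquivOfResidueDegreeOne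
    (α : C →+* B) (hint : α.IsIntegral) (P : Ideal B) [P.IsPrime]
    [IsIntegrallyClosed (C ⧸ P.comap α)]
    (hdeg : ∀ b : B, ∃ c d : C, α d ∉ P ∧ α d * b - α c ∈ P) :
    (C ⧸ P.comap α) ≃+* (B ⧸ P) :=
  RingEquiv.ofBijective _ (quotientMap_bijective_of_residue_degree_one α hint P hdeg)

@[simp] theorem quotientEquivOfResidueDegreeOne_mk
    (α : C →+* B) (hint : α.IsIntegral) (P : Ideal B) [P.IsPrime]
    [IsIntegrallyClosed (C ⧸ P.comap α)]
    (hdeg : ∀ b : B, ∃ c d : C, α d ∉ P ∧ α d * b - α c ∈ P) (c : C) :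
    quotientEquivOfResidueDegreeOne α hint P hdeg (Ideal.Quotient.mk _ c)
      = Ideal.Quotient.mk P (α c) := by
  simp [quotientEquivOfResidueDegreeOne]

/-- `B ⧸ P` is a Dedekind domain as soon as `C ⧸ (P ∩ C)` is one (smoothness of the component,
in the form used for "local uniformisers on the component"). -/
theorem isDedekindDomain_quotient_of_residue_degree_one
    (α : C →+* B) (hint : α.IsIntegral) (P : Ideal B) [P.IsPrime]
    [IsDedekindDomain (C ⧸ P.comap α)]
    (hdeg : ∀ b : B, ∃ c d : C, α d ∉ P ∧ α d * b - α c ∈ P) :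
    IsDedekindDomain (B ⧸ P) := by
  have e := quotientEquivOfResidueDegreeOne α hint P hdeg
  have h1 : IsNoetherianRing (B ⧸ P) := isNoetherianRing_of_ringEquiv _ e
  have h2 : Ring.DimensionLEOne (B ⧸ P) := Ring.DimensionLEOne.of_ringEquiv e.symm
  have h3 : IsIntegrallyClosed (B ⧸ P) := IsIntegrallyClosed.of_equiv e
  exact { h1, h2, h3 with }

/-- **M4, second component by transport.**  If `w : B ≃+* B` and `w' : C ≃+* C` are automorphisms
with `β ∘ w' = w ∘ α` (for `w = w_N`, `w' = w_M`) and `Q = w(P)` (i.e. `b ∈ Q ↔ w⁻¹ b ∈ P`), then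
surjectivity of `α` modulo `P` gives surjectivity of `β` modulo `Q`. -/
theorem exists_sub_mem_of_transport
    (α β : C →+* B) (w : B ≃+* B) (w' : C ≃+* C) (hw : ∀ c, β (w' c) = w (α c))
    (P Q : Ideal B) (hPQ : ∀ b, w b ∈ Q ↔ b ∈ P)
    (hα : ∀ b : B, ∃ c : C, b - α c ∈ P) :
    ∀ b : B, ∃ c : C, b - β c ∈ Q := by
  intro b
  obtain ⟨c, hc⟩ := hα (w.symm b)
  refine ⟨w' c, ?_⟩
  have : w (w.symm b - α c) ∈ Q := (hPQ _).mpr hc
  simpa [map_sub, hw] using this

/-- Transport of the residue-degree-one hypothesis itself along `(w, w')`. -/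
theorem residue_degree_one_of_transport
    (α β : C →+* B) (w : B ≃+* B) (w' : C ≃+* C) (hw : ∀ c, β (w' c) = w (α c))
    (P Q : Ideal B) (hPQ : ∀ b, w b ∈ Q ↔ b ∈ P)
    (hdeg : ∀ b : B, ∃ c d : C, α d ∉ P ∧ α d * b - α c ∈ P) :
    ∀ b : B, ∃ c d : C, β d ∉ Q ∧ β d * b - β c ∈ Q := by
  intro b
  obtain ⟨c, d, hd, hcd⟩ := hdeg (w.symm b)
  refine ⟨w' c, w' d, ?_, ?_⟩
  · rw [hw, hPQ]; exact hd
  · have : w (α d * w.symm b - α c) ∈ Q := (hPQ _).mpr hcd
    simpa [map_sub, map_mul, hw] using this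

end Quotient

section Residue

variable {C B κ : Type*} [CommRing C] [CommRing B] [Field κ]

/-- **M4 in residue-map form.**  `r : B →+* κ` is a "residue map" (e.g. reduction of the
`t`-expansion at a Gauss valuation) with kernel `P`; residue degree one is the statement that
every value `r b` is a quotient `r (α c) / r (α d)`.  Conclusion: `r b = r (α c)` for some `c`. -/
theorem exists_residue_eq_of_residue_degree_one
    (α : C →+* B) (hint : α.IsIntegral) (r : B →+* κ)
    [IsIntegrallyClosed (C ⧸ (RingHom.ker r).comap α)]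
    (hdeg : ∀ b : B, ∃ c d : C, r (α d) ≠ 0 ∧ r b = r (α c) / r (α d)) :
    ∀ b : B, ∃ c : C, r b = r (α c) := by
  have : (RingHom.ker r).IsPrime := RingHom.ker_isPrime r
  have h := exists_sub_mem_of_residue_degree_one α hint (RingHom.ker r) (by
    intro b
    obtain ⟨c, d, hd, hb⟩ := hdeg b
    refine ⟨c, d, ?_, ?_⟩
    · simpa [RingHom.mem_ker] using hd
    · rw [RingHom.mem_ker, map_sub, map_mul, hb, mul_div_cancel₀ _ hd, sub_self])
  intro b
  obtain ⟨c, hc⟩ := h b
  exact ⟨c, by simpa [RingHom.mem_ker, sub_eq_zero] using hc⟩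

end Residue

end Fermat.Agent.A2.H612
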