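/-
Cell A2, piece KRON-concrete (helper612): the SEMILINEAR Kronecker congruences via a Frobenius
element, at the two Gauss valuations of the function field of `X₀(Mℓ)` over `Q̄`.

PART 1 (series level).  `A` a valuation subring of a field `K`, residue field of characteristic
`ℓ`, `ψ : K →+* K` with `ψ A ⊆ A` and `(ψ c)^ℓ ≡ c mod 𝔪_A` (`ψ = φ⁻¹`, `φ` a Frobenius element).
For `x` in the Gauss ring `gaussA A ⊆ K((q))` (helper553):
* `pow_eq_qExpand_frobenius` : in characteristic `ℓ`, `y^ℓ = (Frob y)(q^ℓ)`;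
* `qExpand_mem_gaussA`, `redA_qExpand`, `coeffMap_mem_gaussA_of_frob`;
* `redA_qExpand_eq_pow` : `red (x(q^ℓ)) = (red (ψ x))^ℓ`;   `redA_kron_eq_zero`.

PART 2 (level `M → Mℓ`).  `A ⊆ Q̄` over `ℓ`, `A.IsFrobeniusAt φ ℓ` (Prelude),
`α = heckeAlphaBar`, `β = heckeBetaBar : FF M → FF (M ℓ)`, `g = gal M φ⁻¹`,
`V∞ = H553.VinfModular`, `V₀ = H553.VzeroModular = V∞ ∘ w`:
* `kron_inf`  : `a ∈ V∞(M)  ⟹  β a - (α (g a))^ℓ ∈ 𝔪_{V∞(Mℓ)}`;
* `kron_zero` : `a ∈ V₀(M)  ⟹  α a - (β (g a))^ℓ ∈ 𝔪_{V₀(Mℓ)}`;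
* `wF_heckeAlphaBar`, `wF_heckeBetaBar` : `w_{Mℓ} ∘ α = β ∘ w_M`, `w_{Mℓ} ∘ β = α ∘ w_M`;
* `heckeAlphaBar_gal`, `heckeBetaBar_gal`, membership lemmas for `V∞`, `V₀`;
* `kron_of_isIntegral` : CHART FORM — `a` integral over any subring `S ⊆ V∞(M) ∩ V₀(M)`
  (e.g. `(A ∩ E)[j]`; `jFd_mem_Vinf`, `jFd_mem_Vzero`): both congruences with `a' = φ⁻¹ a`;
  `isIntegral_gal_symm` : `a'` is again integral over `S` if `S` is `φ⁻¹`-stable.

So in `H372.KronCong ℓ α β P₁ P₂` (`P₁ = 𝔪_{V∞} ∩ B`, `P₂ = 𝔪_{V₀} ∩ B`) the witness `a' := φ⁻¹ a`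
works for EVERY `a` of the level-`M` chart over any `φ`-stable `E`: no base change
`B_M = R · B_{M,0}`, no discreteness, any `M` (also `ℓ ∣ M`).
-/
import Mathlib
import Fermat.Prelude.Thm_ModularCurve_coeffMap_qExpand
import Fermat.Prelude.Def_ModularCurve_X0ModL
import Fermat.Prelude.Def_EllipticCurve_FrobeniusTrace
import Fermat.Prelude.Def_ModularCurve_HeckeOperator
import Fermat.Agent.A2.H553.K2Both

set_option autoImplicit false
set_option linter.unusedSectionVars false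
set_option synthInstance.maxHeartbeats 400000
set_option maxHeartbeats 1000000

noncomputable section

namespace Fermat.Agent.A2.H612

section SeriesLevel

open ModularCurve HahnSeries Fermat.Agent.S28.H86 Fermat.Agent.A2.H553

/-! ### Frobenius on Laurent series in characteristic `ℓ` -/

section Frobenius

variable {k : Type*} [Field k] (ℓ : ℕ) [hℓ : Fact ℓ.Prime] [CharP k ℓ]

/-- In characteristic `ℓ`: `(∑ cₙ qⁿ)^ℓ = ∑ cₙ^ℓ q^{ℓ n}`. -/
theorem pow_eq_qExpand_frobenius [NeZero ℓ] (y : LaurentSeries k) :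
    y ^ ℓ = qExpand k ℓ (coeffMap (frobenius k ℓ) y) := by
  have hps : ∀ u : PowerSeries k, u ^ ℓ = (u.map (frobenius k ℓ)).expand ℓ hℓ.out.ne_zero := by
    intro u
    have h := MvPowerSeries.map_frobenius_expand (σ := Unit) (R := k) ℓ hℓ.out.ne_zero (f := u)
    rw [← h]
    exact PowerSeries.map_expand ℓ hℓ.out.ne_zero (frobenius k ℓ) u
  conv_lhs => rw [← LaurentSeries.single_order_mul_powerSeriesPart y]
  conv_rhs => rw [← LaurentSeries.single_order_mul_powerSeriesPart y]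
  rw [mul_pow, map_mul (coeffMap (frobenius k ℓ)), map_mul (qExpand k ℓ), coeffMap_single,
    RingHom.map_one, qExpand_single, HahnSeries.single_pow, one_pow, coeffMap_ofPowerSeries,
    Fermat.Agent.A2.H528.qExpand_ofPowerSeries, ← map_pow, hps, nsmul_eq_mul]

end Frobenius

/-! ### The Gauss ring: `q ↦ q^n` -/

section QExpand

variable {K : Type*} [Field K] (A : ValuationSubring K) (n : ℕ) [NeZero n]

theorem qExpand_inclL (a : LaurentSeries ↥A.toSubring) :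
    qExpand K n (inclL A.toSubring a) = inclL A.toSubring (qExpand ↥A.toSubring n a) :=
  (coeffMap_qExpand A.toSubring.subtype n a).symm

theorem redL_qExpand (a : LaurentSeries ↥A.toSubring) :
    redL (resA A) (qExpand ↥A.toSubring n a) =
      qExpand (IsLocalRing.ResidueField ↥A) n (redL (resA A) a) :=
  coeffMap_qExpand (resA A) n a

theorem qExpand_ne_zero {R : Type*} [CommRing R] {y : LaurentSeries R} (hy : y ≠ 0) :
    qExpand R n y ≠ 0 := fun h =>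
  hy (qExpand_injective n (h.trans (map_zero _).symm))

/-- `x(q) ↦ x(q^n)` preserves the Gauss ring. -/
theorem qExpand_mem_gaussA {x : LaurentSeries K} (hx : x ∈ gaussA A) :
    qExpand K n x ∈ gaussA A := by
  obtain ⟨a, b, hb, hab⟩ := hx
  refine ⟨qExpand _ n a, qExpand _ n b, ?_, ?_⟩
  · rw [redL_qExpand]
    exact qExpand_ne_zero n hb
  · rw [← qExpand_inclL, ← qExpand_inclL, ← map_mul, hab]

/-- reduction commutes with `q ↦ q^n`. -/
theorem redA_qExpand (x : gaussA A) :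
    redA A ⟨qExpand K n (x : LaurentSeries K), qExpand_mem_gaussA A n x.2⟩ =
      qExpand (IsLocalRing.ResidueField ↥A) n (redA A x) := by
  obtain ⟨a, b, hb, hab⟩ := x.2
  have hb' : redL (resA A) (qExpand ↥A.toSubring n b) ≠ 0 := by
    rw [redL_qExpand]
    exact qExpand_ne_zero n hb
  have hab' : qExpand K n (x : LaurentSeries K) * inclL A.toSubring (qExpand _ n b) =
      inclL A.toSubring (qExpand _ n a) := by
    rw [← qExpand_inclL, ← qExpand_inclL, ← map_mul, hab]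
  rw [redA_eq ⟨_, qExpand_mem_gaussA A n x.2⟩ _ _ hb' hab', redA_eq x a b hb hab,
    redL_qExpand, redL_qExpand, map_div₀]

end QExpand

/-! ### The semilinear Kronecker congruence -/

section Kron

variable {K : Type*} [Field K] (A : ValuationSubring K) (ℓ : ℕ) [hℓ : Fact ℓ.Prime]

/-- The residue field has characteristic `ℓ` when `ℓ` is a nonunit of `A`. -/
theorem charP_residueField (hA : (ℓ : K) ∈ A.nonunits) :
    CharP (IsLocalRing.ResidueField ↥A) ℓ := by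
  rw [CharP.charP_iff_prime_eq_zero hℓ.out]
  have h1 : resA A ((ℓ : ℕ) : ↥A.toSubring) = 0 := by
    rw [resA_eq_zero_iff]
    have : (((ℓ : ℕ) : ↥A.toSubring) : K) = (ℓ : K) := by simp
    rw [this]
    exact A.mem_nonunits_iff.mp hA
  rw [map_natCast] at h1
  exact h1

variable (ψ : K →+* K)

/-- restriction of `ψ` to `A`. -/
def restrictPsi (hψA : ∀ c : K, c ∈ A → ψ c ∈ A) : ↥A.toSubring →+* ↥A.toSubring :=
  (ψ.comp A.toSubring.subtype).codRestrict A.toSubring (fun x => hψA _ x.2)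

theorem coe_restrictPsi (hψA : ∀ c : K, c ∈ A → ψ c ∈ A) (x : ↥A.toSubring) :
    ((restrictPsi A ψ hψA x : ↥A.toSubring) : K) = ψ (x : K) := rfl

theorem coeffMap_psi_inclL (hψA : ∀ c : K, c ∈ A → ψ c ∈ A) (a : LaurentSeries ↥A.toSubring) :
    coeffMap ψ (inclL A.toSubring a) = inclL A.toSubring (coeffMap (restrictPsi A ψ hψA) a) := by
  ext n
  rfl


/-- **Frobenius twist, integral series.**  `(red (ψ a))^ℓ = (red a)(q^ℓ)`. -/
theorem redL_psi_pow [NeZero ℓ] (hψA : ∀ c : K, c ∈ A → ψ c ∈ A)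
    (hA : (ℓ : K) ∈ A.nonunits)
    (hfrob : ∀ c : K, c ∈ A → A.valuation ((ψ c) ^ ℓ - c) < 1) (a : LaurentSeries ↥A.toSubring) :
    (redL (resA A) (coeffMap (restrictPsi A ψ hψA) a)) ^ ℓ =
      qExpand (IsLocalRing.ResidueField ↥A) ℓ (redL (resA A) a) := by
  have := charP_residueField A ℓ hA
  rw [pow_eq_qExpand_frobenius ℓ]
  congr 1
  ext n
  rw [coeffMap_coeff, redL_coeff, redL_coeff, coeffMap_coeff, frobenius_def, ← map_pow,
    ← sub_eq_zero, ← map_sub, resA_eq_zero_iff]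
  exact hfrob _ (a.coeff n).2

/-- `ψ` preserves primitivity. -/
theorem redL_psi_ne_zero [NeZero ℓ] (hψA : ∀ c : K, c ∈ A → ψ c ∈ A)
    (hA : (ℓ : K) ∈ A.nonunits)
    (hfrob : ∀ c : K, c ∈ A → A.valuation ((ψ c) ^ ℓ - c) < 1)
    {b : LaurentSeries ↥A.toSubring} (hb : redL (resA A) b ≠ 0) :
    redL (resA A) (coeffMap (restrictPsi A ψ hψA) b) ≠ 0 := by
  intro h0
  have h1 := redL_psi_pow A ℓ ψ hψA hA hfrob b
  rw [h0, zero_pow hℓ.out.ne_zero] at h1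
  exact qExpand_ne_zero ℓ hb h1.symm

/-- `ψ` (coefficientwise) preserves the Gauss ring. -/
theorem coeffMap_mem_gaussA_of_frob [NeZero ℓ] (hψA : ∀ c : K, c ∈ A → ψ c ∈ A)
    (hA : (ℓ : K) ∈ A.nonunits)
    (hfrob : ∀ c : K, c ∈ A → A.valuation ((ψ c) ^ ℓ - c) < 1)
    {x : LaurentSeries K} (hx : x ∈ gaussA A) :
    coeffMap ψ x ∈ gaussA A := by
  obtain ⟨a, b, hb, hab⟩ := hx
  refine ⟨coeffMap (restrictPsi A ψ hψA) a, coeffMap (restrictPsi A ψ hψA) b,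
    redL_psi_ne_zero A ℓ ψ hψA hA hfrob hb, ?_⟩
  rw [← coeffMap_psi_inclL A ψ hψA, ← coeffMap_psi_inclL A ψ hψA, ← map_mul, hab]

/-- **Semilinear Kronecker congruence, reduction form**:
`red (x(q^ℓ)) = (red (ψ x))^ℓ` for `x` in the Gauss ring. -/
theorem redA_qExpand_eq_pow [NeZero ℓ] (hψA : ∀ c : K, c ∈ A → ψ c ∈ A)
    (hA : (ℓ : K) ∈ A.nonunits)
    (hfrob : ∀ c : K, c ∈ A → A.valuation ((ψ c) ^ ℓ - c) < 1) (x : gaussA A) :
    redA A ⟨qExpand K ℓ (x : LaurentSeries K), qExpand_mem_gaussA A ℓ x.2⟩ =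
      (redA A ⟨coeffMap ψ (x : LaurentSeries K),
        coeffMap_mem_gaussA_of_frob A ℓ ψ hψA hA hfrob x.2⟩) ^ ℓ := by
  obtain ⟨a, b, hb, hab⟩ := x.2
  have hb' := redL_psi_ne_zero A ℓ ψ hψA hA hfrob hb
  have hab' : coeffMap ψ (x : LaurentSeries K) *
      inclL A.toSubring (coeffMap (restrictPsi A ψ hψA) b) =
      inclL A.toSubring (coeffMap (restrictPsi A ψ hψA) a) := by
    rw [← coeffMap_psi_inclL A ψ hψA, ← coeffMap_psi_inclL A ψ hψA, ← map_mul, hab]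
  rw [redA_qExpand, redA_eq x a b hb hab,
    redA_eq ⟨_, coeffMap_mem_gaussA_of_frob A ℓ ψ hψA hA hfrob x.2⟩ _ _ hb' hab', div_pow,
    redL_psi_pow A ℓ ψ hψA hA hfrob, redL_psi_pow A ℓ ψ hψA hA hfrob, map_div₀]

/-- **Semilinear Kronecker congruence**: `x(q^ℓ) - (ψ x)^ℓ` lies in the Gauss ring and reduces
to `0`. -/
theorem redA_kron_eq_zero [NeZero ℓ] (hψA : ∀ c : K, c ∈ A → ψ c ∈ A)
    (hA : (ℓ : K) ∈ A.nonunits)
    (hfrob : ∀ c : K, c ∈ A → A.valuation ((ψ c) ^ ℓ - c) < 1) (x : gaussA A) :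
    ∃ h : qExpand K ℓ (x : LaurentSeries K) - (coeffMap ψ (x : LaurentSeries K)) ^ ℓ ∈ gaussA A,
      redA A ⟨_, h⟩ = 0 := by
  have h1 := qExpand_mem_gaussA A ℓ x.2
  have h2 := coeffMap_mem_gaussA_of_frob A ℓ ψ hψA hA hfrob x.2
  refine ⟨sub_mem h1 (pow_mem h2 ℓ), ?_⟩
  have e : (⟨_, sub_mem h1 (pow_mem h2 ℓ)⟩ : gaussA A) =
      ⟨_, h1⟩ - (⟨_, h2⟩ : gaussA A) ^ ℓ := rfl
  rw [e, map_sub, map_pow, redA_qExpand_eq_pow A ℓ ψ hψA hA hfrob x, sub_self]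

end Kron

end SeriesLevel

open ModularCurve HahnSeries IntermediateField AlgebraicCurve
open Fermat.Agent.S24 Fermat.Agent.S24.H997 Fermat.Agent.A2.H528 Fermat.Agent.A2.H553
open Fermat.Agent.S28.H86

local notation "Q̄" => AlgebraicClosure ℚ

/-! ### Frobenius elements, elementary form -/

section FrobElt

variable (A : ValuationSubring Q̄) {ℓ : ℕ} {φ : Q̄ ≃ₐ[ℚ] Q̄}

theorem symm_mem_decomposition (hφ : A.IsFrobeniusAt φ ℓ) :
    φ.symm ∈ A.decompositionSubgroup ℚ := by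
  have h := inv_mem hφ.mem_decompositionSubgroup
  exact h

theorem symm_apply_mem (hφ : A.IsFrobeniusAt φ ℓ) {c : Q̄} (hc : c ∈ A) : φ.symm c ∈ A :=
  Fermat.Agent.A2.H708.apply_mem_of_mem_decomposition A (symm_mem_decomposition A hφ) hc

/-- A Frobenius element is congruent to the `ℓ`-th power map on `A`. -/
theorem valuation_frob_sub_pow_lt_one (hφ : A.IsFrobeniusAt φ ℓ) {z : Q̄} (hz : z ∈ A) :
    A.valuation (φ z - z ^ ℓ) < 1 := by
  obtain ⟨hσD, hF⟩ := hφ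
  have h2 := hF (IsLocalRing.residue A ⟨z, hz⟩)
  rw [← IsLocalRing.ResidueField.residue_smul, ← map_pow] at h2
  have h3 : ((⟨φ, hσD⟩ : A.decompositionSubgroup ℚ) • (⟨z, hz⟩ : A)) - (⟨z, hz⟩ : A) ^ ℓ
      ∈ IsLocalRing.maximalIdeal A := by
    rw [← Ideal.Quotient.eq]
    exact h2
  rw [ValuationSubring.valuation_lt_one_iff] at h3
  exact h3

/-- `(φ⁻¹ c)^ℓ ≡ c` modulo the maximal ideal of `A`. -/
theorem valuation_symm_pow_sub_lt_one (hφ : A.IsFrobeniusAt φ ℓ) {c : Q̄} (hc : c ∈ A) :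
    A.valuation ((φ.symm c) ^ ℓ - c) < 1 := by
  have h := valuation_frob_sub_pow_lt_one A hφ (symm_apply_mem A hφ hc)
  rw [AlgEquiv.apply_symm_apply] at h
  rw [← Valuation.map_neg, neg_sub]
  exact h

end FrobElt

/-! ### The congruence at `V∞` -/

section Inf

variable (A : ValuationSubring Q̄) {ℓ : ℕ} [hℓp : Fact ℓ.Prime] (hℓ : ℓ ≠ 0)
  (hA : A.LiesOverPrime ℓ) (M : ℕ) [NeZero M] [NeZero ℓ] {φ : Q̄ ≃ₐ[ℚ] Q̄}

theorem mem_VinfModular_iff {N : ℕ} {f : FF N} :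
    f ∈ VinfModular A hℓ hA N ↔ (f : LaurentSeries Q̄) ∈ gaussA A := Iff.rfl

/-- `α` maps `V∞(M)` into `V∞(Mℓ)`. -/
theorem heckeAlphaBar_mem_Vinf {a : FF M} (ha : a ∈ VinfModular A hℓ hA M) :
    heckeAlphaBar Q̄ M ℓ a ∈ VinfModular A hℓ hA (M * ℓ) := by
  rw [mem_VinfModular_iff] at ha ⊢
  rw [coe_heckeAlphaBar]
  exact ha

/-- `β` maps `V∞(M)` into `V∞(Mℓ)`. -/
theorem heckeBetaBar_mem_Vinf {a : FF M} (ha : a ∈ VinfModular A hℓ hA M) :
    heckeBetaBar Q̄ M ℓ a ∈ VinfModular A hℓ hA (M * ℓ) := by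
  rw [mem_VinfModular_iff] at ha ⊢
  rw [coe_heckeBetaBar]
  exact qExpand_mem_gaussA A ℓ ha

/-- `φ⁻¹` preserves `V∞`. -/
theorem gal_symm_mem_Vinf (hφ : A.IsFrobeniusAt φ ℓ) {N : ℕ} {a : FF N}
    (ha : a ∈ VinfModular A hℓ hA N) : gal N φ.symm a ∈ VinfModular A hℓ hA N :=
  arithmeticRingAut_mem_Vinf _ (symm_mem_decomposition A hφ) ha

/-- **Semilinear Kronecker congruence at `V∞`.** -/
theorem kron_inf (hφ : A.IsFrobeniusAt φ ℓ) {a : FF M} (ha : a ∈ VinfModular A hℓ hA M) :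
    (VinfModular A hℓ hA (M * ℓ)).valuation
      (heckeBetaBar Q̄ M ℓ a - (heckeAlphaBar Q̄ M ℓ (gal M φ.symm a)) ^ ℓ) < 1 := by
  set y : FF (M * ℓ) := heckeBetaBar Q̄ M ℓ a - (heckeAlphaBar Q̄ M ℓ (gal M φ.symm a)) ^ ℓ
    with hy
  have hyV : y ∈ VinfModular A hℓ hA (M * ℓ) :=
    sub_mem (heckeBetaBar_mem_Vinf A hℓ hA M ha)
      (pow_mem (heckeAlphaBar_mem_Vinf A hℓ hA M (gal_symm_mem_Vinf A hℓ hA hφ ha)) ℓ)
  have key := redA_kron_eq_zero A ℓ (φ.symm : Q̄ →+* Q̄)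
    (fun c hc => symm_apply_mem A hφ hc) hA
    (fun c hc => valuation_symm_pow_sub_lt_one A hφ hc) ⟨(a : LaurentSeries Q̄), ha⟩
  obtain ⟨h1, h2⟩ := key
  have h3 := (redInf_eq_zero_iff (gaussInput_modular A hℓ hA (M * ℓ)) ⟨y, hyV⟩).mp (by
    rw [redInf_apply]
    exact h2)
  exact h3

end Inf

/-! ### Fricke and the degeneracy maps -/

section Fricke

variable (M : ℕ) [NeZero M] (ℓ : ℕ) [NeZero ℓ]

theorem heckeBetaBar_jFd (d : ℕ) [NeZero d] (hd : d ∣ M) :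
    heckeBetaBar Q̄ M ℓ (jFd M d hd) = jFd (M * ℓ) (d * ℓ) (Nat.mul_dvd_mul_right hd ℓ) := by
  apply Subtype.ext
  rw [coe_heckeBetaBar, coe_jFd, coe_jFd]
  show qExpand Q̄ ℓ (coeffMap (algebraMap ℚ Q̄) _) = coeffMap (algebraMap ℚ Q̄) _
  rw [← coeffMap_qExpand (algebraMap ℚ Q̄) ℓ, qExpand_qExpand]
  congr 1
  exact qExpand_congr (mul_comm ℓ d) jq

theorem heckeAlphaBar_jFd (d : ℕ) [NeZero d] (hd : d ∣ M) :
    heckeAlphaBar Q̄ M ℓ (jFd M d hd) = jFd (M * ℓ) d (hd.mul_right ℓ) := by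
  apply Subtype.ext
  rw [coe_heckeAlphaBar, coe_jFd, coe_jFd]

/-- Two ring homomorphisms out of `FF M` which agree on the constants and on the generators
`j(q^d)`, `d ∣ M`, are equal. -/
theorem ringHom_ext_FF {L : Type*} [Field L] (f g : FF M →+* L)
    (hc : ∀ c : Q̄, f (algebraMap Q̄ (FF M) c) = g (algebraMap Q̄ (FF M) c))
    (hj : ∀ (d : ℕ) [NeZero d] (hd : d ∣ M), f (jFd M d hd) = g (jFd M d hd)) : f = g := by
  have hR : ∀ r : RN M, f (inclRN M r) = g (inclRN M r) := by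
    rintro ⟨r, hr⟩
    induction hr using Algebra.adjoin_induction with
    | mem x hx =>
        obtain ⟨y, ⟨d, hne, hd, rfl⟩, rfl⟩ := hx
        have := hne
        exact hj d hd
    | algebraMap c =>
        have h1 : (⟨algebraMap Q̄ (LaurentSeries Q̄) c, Subalgebra.algebraMap_mem _ c⟩ : RN M)
            = algebraMap Q̄ (RN M) c := rfl
        have h2 : inclRN M (algebraMap Q̄ (RN M) c) = algebraMap Q̄ (FF M) c :=
          (inclRN M).commutes c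
        rw [h1, h2]
        exact hc c
    | add x y hx hy ihx ihy =>
        have h1 : (⟨x + y, add_mem hx hy⟩ : RN M) = ⟨x, hx⟩ + ⟨y, hy⟩ := rfl
        rw [h1, map_add, map_add, map_add, ihx, ihy]
    | mul x y hx hy ihx ihy =>
        have h1 : (⟨x * y, mul_mem hx hy⟩ : RN M) = ⟨x, hx⟩ * ⟨y, hy⟩ := rfl
        rw [h1, map_mul, map_mul, map_mul, ihx, ihy]
  refine RingHom.ext fun a => ?_
  obtain ⟨r, t, -, rfl⟩ := exists_div_inclRN M a
  rw [map_div₀, map_div₀, hR, hR]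

/-- `w_{Mℓ} ∘ α = β ∘ w_M`. -/
theorem wF_heckeAlphaBar (a : FF M) :
    wF (M * ℓ) (heckeAlphaBar Q̄ M ℓ a) = heckeBetaBar Q̄ M ℓ (wF M a) := by
  have h := ringHom_ext_FF M
    (((wF (M * ℓ) : FF (M * ℓ) ≃ₐ[Q̄] FF (M * ℓ)) : FF (M * ℓ) →+* FF (M * ℓ)).comp
      (heckeAlphaBar Q̄ M ℓ : FF M →+* FF (M * ℓ)))
    ((heckeBetaBar Q̄ M ℓ : FF M →+* FF (M * ℓ)).comp
      ((wF M : FF M ≃ₐ[Q̄] FF M) : FF M →+* FF M)) ?_ ?_
  · exact RingHom.congr_fun h a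
  · intro c
    simp only [RingHom.comp_apply, RingHom.coe_coe, AlgHom.commutes, AlgEquiv.commutes]
  · intro d _ hd
    have := neZero_div M hd
    simp only [RingHom.comp_apply, RingHom.coe_coe]
    rw [heckeAlphaBar_jFd, wF_jFd, wF_jFd, heckeBetaBar_jFd]
    have := neZero_div (M * ℓ) (hd.mul_right ℓ)
    exact jFd_congr (M * ℓ) _ _ (Nat.mul_div_right_comm hd ℓ)

/-- `w_{Mℓ} ∘ β = α ∘ w_M`. -/
theorem wF_heckeBetaBar (a : FF M) :
    wF (M * ℓ) (heckeBetaBar Q̄ M ℓ a) = heckeAlphaBar Q̄ M ℓ (wF M a) := by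
  have h := ringHom_ext_FF M
    (((wF (M * ℓ) : FF (M * ℓ) ≃ₐ[Q̄] FF (M * ℓ)) : FF (M * ℓ) →+* FF (M * ℓ)).comp
      (heckeBetaBar Q̄ M ℓ : FF M →+* FF (M * ℓ)))
    ((heckeAlphaBar Q̄ M ℓ : FF M →+* FF (M * ℓ)).comp
      ((wF M : FF M ≃ₐ[Q̄] FF M) : FF M →+* FF M)) ?_ ?_
  · exact RingHom.congr_fun h a
  · intro c
    simp only [RingHom.comp_apply, RingHom.coe_coe, AlgHom.commutes, AlgEquiv.commutes]
  · intro d _ hd
    have := neZero_div M hd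
    simp only [RingHom.comp_apply, RingHom.coe_coe]
    rw [heckeBetaBar_jFd, wF_jFd, wF_jFd, heckeAlphaBar_jFd]
    have := neZero_div (M * ℓ) (Nat.mul_dvd_mul_right hd ℓ)
    exact jFd_congr (M * ℓ) _ _
      (Nat.mul_div_mul_right M d (Nat.pos_of_ne_zero (NeZero.ne ℓ)))

/-- `α` commutes with the Galois action on the coefficients. -/
theorem heckeAlphaBar_gal (σ : Q̄ ≃ₐ[ℚ] Q̄) (a : FF M) :
    heckeAlphaBar Q̄ M ℓ (gal M σ a) = gal (M * ℓ) σ (heckeAlphaBar Q̄ M ℓ a) := by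
  apply Subtype.ext
  rw [coe_heckeAlphaBar, coe_arithmeticRingAut_apply, coe_arithmeticRingAut_apply,
    coe_heckeAlphaBar]

/-- `β` commutes with the Galois action on the coefficients. -/
theorem heckeBetaBar_gal (σ : Q̄ ≃ₐ[ℚ] Q̄) (a : FF M) :
    heckeBetaBar Q̄ M ℓ (gal M σ a) = gal (M * ℓ) σ (heckeBetaBar Q̄ M ℓ a) := by
  apply Subtype.ext
  rw [coe_heckeBetaBar, coe_arithmeticRingAut_apply, coe_arithmeticRingAut_apply,
    coe_heckeBetaBar, coeffMap_qExpand]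

end Fricke

/-! ### The congruence at `V₀` -/

section Zero

variable (A : ValuationSubring Q̄) {ℓ : ℕ} [hℓp : Fact ℓ.Prime] (hℓ : ℓ ≠ 0)
  (hA : A.LiesOverPrime ℓ) (M : ℕ) [NeZero M] [NeZero ℓ] {φ : Q̄ ≃ₐ[ℚ] Q̄}

theorem valuation_Vzero_lt_one_iff {N : ℕ} [NeZero N] {f : FF N} :
    (VzeroModular A hℓ hA N).valuation f < 1 ↔
      (VinfModular A hℓ hA N).valuation (wF N f) < 1 :=
  valuation_comapAut_lt_one_iff (VinfModular A hℓ hA N) (wF N).toRingEquiv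

/-- `α` maps `V₀(M)` into `V₀(Mℓ)`. -/
theorem heckeAlphaBar_mem_Vzero {a : FF M} (ha : a ∈ VzeroModular A hℓ hA M) :
    heckeAlphaBar Q̄ M ℓ a ∈ VzeroModular A hℓ hA (M * ℓ) := by
  rw [mem_VzeroModular] at ha ⊢
  rw [wF_heckeAlphaBar]
  exact heckeBetaBar_mem_Vinf A hℓ hA M ha

/-- `β` maps `V₀(M)` into `V₀(Mℓ)`. -/
theorem heckeBetaBar_mem_Vzero {a : FF M} (ha : a ∈ VzeroModular A hℓ hA M) :
    heckeBetaBar Q̄ M ℓ a ∈ VzeroModular A hℓ hA (M * ℓ) := by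
  rw [mem_VzeroModular] at ha ⊢
  rw [wF_heckeBetaBar]
  exact heckeAlphaBar_mem_Vinf A hℓ hA M ha

/-- `φ⁻¹` preserves `V₀`. -/
theorem gal_symm_mem_Vzero (hφ : A.IsFrobeniusAt φ ℓ) {N : ℕ} [NeZero N] {a : FF N}
    (ha : a ∈ VzeroModular A hℓ hA N) : gal N φ.symm a ∈ VzeroModular A hℓ hA N := by
  rw [mem_VzeroModular] at ha ⊢
  rw [wF_gal]
  exact gal_symm_mem_Vinf A hℓ hA hφ ha

/-- **Semilinear Kronecker congruence at `V₀`.** -/
theorem kron_zero (hφ : A.IsFrobeniusAt φ ℓ) {a : FF M} (ha : a ∈ VzeroModular A hℓ hA M) :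
    (VzeroModular A hℓ hA (M * ℓ)).valuation
      (heckeAlphaBar Q̄ M ℓ a - (heckeBetaBar Q̄ M ℓ (gal M φ.symm a)) ^ ℓ) < 1 := by
  rw [valuation_Vzero_lt_one_iff, map_sub, map_pow, wF_heckeAlphaBar, wF_heckeBetaBar, wF_gal]
  exact kron_inf A hℓ hA M hφ ha

/-- Both congruences with the SAME witness `a' = φ⁻¹ a`, when `a` is integral at both Gauss
valuations of level `M` (for `ℓ ∤ M` these coincide). -/
theorem kron_both (hφ : A.IsFrobeniusAt φ ℓ) {a : FF M} (ha : a ∈ VinfModular A hℓ hA M)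
    (ha' : a ∈ VzeroModular A hℓ hA M) :
    (VinfModular A hℓ hA (M * ℓ)).valuation
        (heckeBetaBar Q̄ M ℓ a - (heckeAlphaBar Q̄ M ℓ (gal M φ.symm a)) ^ ℓ) < 1 ∧
      (VzeroModular A hℓ hA (M * ℓ)).valuation
        (heckeAlphaBar Q̄ M ℓ a - (heckeBetaBar Q̄ M ℓ (gal M φ.symm a)) ^ ℓ) < 1 :=
  ⟨kron_inf A hℓ hA M hφ ha, kron_zero A hℓ hA M hφ ha'⟩

end Zero

/-! ### Chart form: elements integral over `A[j]` -/

section Chart

/-- A valuation subring contains every element integral over a subring it contains. -/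
theorem mem_of_isIntegral_of_le {F : Type*} [Field F] (V : ValuationSubring F) (S : Subring F)
    (hS : ∀ s ∈ S, s ∈ V) {y : F} (hy : IsIntegral S y) : y ∈ V := by
  obtain ⟨p, hp, hpy⟩ := hy
  let ι : S →+* V := (S.subtype).codRestrict V.toSubring (fun s => hS s s.2)
  have h1 : IsIntegral V y := by
    refine ⟨p.map ι, hp.map ι, ?_⟩
    rw [Polynomial.eval₂_map]
    exact hpy
  obtain ⟨z, hz⟩ := IsIntegrallyClosedIn.algebraMap_eq_of_integral h1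
  rw [← hz]
  exact z.2

variable (A : ValuationSubring Q̄) {ℓ : ℕ} [hℓp : Fact ℓ.Prime] (hℓ : ℓ ≠ 0)
  (hA : A.LiesOverPrime ℓ) (M : ℕ) [NeZero M] [NeZero ℓ] {φ : Q̄ ≃ₐ[ℚ] Q̄}

/-- `j(q^d)` is integral at `V∞`. -/
theorem jFd_mem_Vinf (d : ℕ) [NeZero d] (hd : d ∣ M) : jFd M d hd ∈ VinfModular A hℓ hA M :=
  mem_Vinf_of_intEmb A hℓ hA M (coe_jFd_int M d hd)

/-- `j(q^d)` is integral at `V₀`. -/
theorem jFd_mem_Vzero (d : ℕ) [NeZero d] (hd : d ∣ M) : jFd M d hd ∈ VzeroModular A hℓ hA M := by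
  have := neZero_div M hd
  rw [mem_VzeroModular, wF_jFd]
  exact jFd_mem_Vinf A hℓ hA M _ _

/-- **Semilinear Kronecker congruences, chart form.**  `S` any subring of `FF M` contained in
`V∞(M) ∩ V₀(M)` (e.g. `(A ∩ E)[j]`), `a` integral over `S`.  Then `a' := φ⁻¹ a` satisfies
`β a ≡ (α a')^ℓ mod 𝔪_{V∞(Mℓ)}` and `α a ≡ (β a')^ℓ mod 𝔪_{V₀(Mℓ)}`. -/
theorem kron_of_isIntegral (hφ : A.IsFrobeniusAt φ ℓ) (S : Subring (FF M))
    (hS : ∀ s ∈ S, s ∈ VinfModular A hℓ hA M) (hS' : ∀ s ∈ S, s ∈ VzeroModular A hℓ hA M)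
    {a : FF M} (ha : IsIntegral S a) :
    (VinfModular A hℓ hA (M * ℓ)).valuation
        (heckeBetaBar Q̄ M ℓ a - (heckeAlphaBar Q̄ M ℓ (gal M φ.symm a)) ^ ℓ) < 1 ∧
      (VzeroModular A hℓ hA (M * ℓ)).valuation
        (heckeAlphaBar Q̄ M ℓ a - (heckeBetaBar Q̄ M ℓ (gal M φ.symm a)) ^ ℓ) < 1 :=
  kron_both A hℓ hA M hφ (mem_of_isIntegral_of_le _ S hS ha) (mem_of_isIntegral_of_le _ S hS' ha)

/-- The witness `φ⁻¹ a` is again integral over `S` when `S` is `φ⁻¹`-stable. -/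
theorem isIntegral_gal_symm (S : Subring (FF M)) (σ : Q̄ ≃ₐ[ℚ] Q̄)
    (hσS : ∀ s ∈ S, gal M σ s ∈ S) {a : FF M} (ha : IsIntegral S a) :
    IsIntegral S (gal M σ a) := by
  obtain ⟨p, hp, hpa⟩ := ha
  let τ : S →+* S := ((gal M σ : FF M →+* FF M).comp S.subtype).codRestrict S
    (fun s => hσS s s.2)
  refine ⟨p.map τ, hp.map τ, ?_⟩
  rw [Polynomial.eval₂_map]
  have h1 : (algebraMap S (FF M)).comp τ = (gal M σ : FF M →+* FF M).comp (algebraMap S (FF M)) :=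
    RingHom.ext fun s => rfl
  rw [h1]
  have h2 := Polynomial.hom_eval₂ p (algebraMap S (FF M)) (gal M σ : FF M →+* FF M) a
  rw [hpa, map_zero] at h2
  exact h2.symm

end Chart

end Fermat.Agent.A2.H612
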