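/-
Cell A2, piece M3-lite, helper612.  Mathlib-only.

"No Serre criterion needed": if `π` is a nonzerodivisor of `A`, `A ⧸ (π)` is reduced and
`x ∈ A[1/π]` is integral over `A`, then `x ∈ A`.  Consequently `A` is integrally closed as soon as
`A[1/π]` is (generic fibre normal + special fibre reduced ⇒ normal).

Main statements
* `dvd_of_eval_scaleRoots_eq_zero` : the core divisibility statement inside `A`.
* `exists_algebraMap_eq_of_isIntegral_of_mul_pow` : `x * π ^ k = a`, `x` integral ⇒ `x ∈ A`.
* `exists_algebraMap_eq_of_isIntegral_away` : the same for `IsLocalization.Away π L`.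
* `isIntegrallyClosed_of_away` : `A[1/π]` integrally closed + `A ⧸ (π)` reduced ⇒ `A` integrally
  closed.
-/
import Mathlib.RingTheory.IntegralClosure.IntegrallyClosed
import Mathlib.RingTheory.Polynomial.ScaleRoots
import Mathlib.RingTheory.Ideal.Quotient.Operations
import Mathlib.RingTheory.Localization.Away.Basic
import Mathlib.RingTheory.Localization.FractionRing
import Mathlib.RingTheory.Nilpotent.Basic

namespace Fermat.Agent.A2.H612

open Polynomial

/-- The powers of a nonzerodivisor are nonzerodivisors. -/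
theorem powers_le_nonZeroDivisors_of_mem {A : Type*} [CommRing A] {π : A}
    (hπ : π ∈ nonZeroDivisors A) : Submonoid.powers π ≤ nonZeroDivisors A := by
  rintro _ ⟨n, rfl⟩
  exact pow_mem hπ n

/-- For monic `p` and `π ∣ s`: `eval a (scaleRoots p s) ≡ a ^ deg p  (mod π)`. -/
theorem eval_scaleRoots_sub_pow_mem {A : Type*} [CommRing A] (π s a : A) (hs : π ∣ s)
    {p : A[X]} (hp : p.Monic) :
    π ∣ eval a (scaleRoots p s) - a ^ p.natDegree := by
  rw [eval_eq_sum_range, natDegree_scaleRoots, Finset.sum_range_succ, coeff_scaleRoots_natDegree,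
    hp.leadingCoeff, one_mul, add_sub_cancel_right]
  refine Finset.dvd_sum fun i hi => ?_
  rw [coeff_scaleRoots]
  have hi' : i < p.natDegree := Finset.mem_range.mp hi
  have h1 : s ∣ s ^ (p.natDegree - i) := dvd_pow_self s (Nat.sub_ne_zero_of_lt hi')
  exact Dvd.dvd.mul_right (Dvd.dvd.mul_left (hs.trans h1) _) _

/-- **M3-lite, core.**  If `A ⧸ (π)` is reduced, `p` is monic, `π ∣ s` and
`eval a (scaleRoots p s) = 0`, then `π ∣ a`. -/
theorem dvd_of_eval_scaleRoots_eq_zero {A : Type*} [CommRing A] (π : A)
    [IsReduced (A ⧸ Ideal.span {π})] (s a : A) (hs : π ∣ s) {p : A[X]} (hp : p.Monic)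
    (h : eval a (scaleRoots p s) = 0) : π ∣ a := by
  have h1 := eval_scaleRoots_sub_pow_mem π s a hs hp
  rw [h, zero_sub, dvd_neg] at h1
  have h2 : (Ideal.Quotient.mk (Ideal.span {π}) a) ^ p.natDegree = 0 := by
    rw [← map_pow, Ideal.Quotient.eq_zero_iff_mem, Ideal.mem_span_singleton]
    exact h1
  have h3 : Ideal.Quotient.mk (Ideal.span {π}) a = 0 :=
    IsReduced.eq_zero _ ⟨_, h2⟩
  rwa [Ideal.Quotient.eq_zero_iff_mem, Ideal.mem_span_singleton] at h3

/-- **M3-lite.**  `L` an `A`-algebra with `A → L` injective and `π` invertible in `L`,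
`A ⧸ (π)` reduced.  If `x : L` is integral over `A` and `x * π ^ k ∈ A`, then `x ∈ A`. -/
theorem exists_algebraMap_eq_of_isIntegral_of_mul_pow
    {A L : Type*} [CommRing A] [CommRing L] [Algebra A L]
    (hinj : Function.Injective (algebraMap A L)) (π : A) (hπ : IsUnit (algebraMap A L π))
    [IsReduced (A ⧸ Ideal.span {π})] :
    ∀ (k : ℕ) (x : L) (a : A), IsIntegral A x → x * algebraMap A L π ^ k = algebraMap A L a →
      ∃ a' : A, algebraMap A L a' = x := by
  intro k
  induction k with
  | zero =>
    intro x a _ h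
    exact ⟨a, by simpa using h.symm⟩
  | succ k ih =>
    intro x a hx h
    obtain ⟨p, hp, hpx⟩ := hx
    have h1 : eval a (scaleRoots p (π ^ (k + 1))) = 0 := by
      apply hinj
      rw [map_zero, ← Polynomial.eval₂_hom, ← h, mul_comm x, ← map_pow,
        scaleRoots_eval₂_mul, hpx, mul_zero]
    obtain ⟨a', rfl⟩ := dvd_of_eval_scaleRoots_eq_zero π (π ^ (k + 1)) a
      (dvd_pow_self π (Nat.succ_ne_zero k)) hp h1
    refine ih x a' ⟨p, hp, hpx⟩ ?_
    apply hπ.mul_left_cancel
    rw [map_mul] at h
    rw [← h, pow_succ]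
    ring

/-- **M3-lite for `A[1/π]`.** -/
theorem exists_algebraMap_eq_of_isIntegral_away
    {A L : Type*} [CommRing A] [CommRing L] [Algebra A L] (π : A) [IsLocalization.Away π L]
    (hπ : π ∈ nonZeroDivisors A) [IsReduced (A ⧸ Ideal.span {π})]
    {x : L} (hx : IsIntegral A x) : ∃ a : A, algebraMap A L a = x := by
  have hinj : Function.Injective (algebraMap A L) :=
    IsLocalization.injective L (powers_le_nonZeroDivisors_of_mem hπ)
  have hu : IsUnit (algebraMap A L π) := IsLocalization.Away.algebraMap_isUnit π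
  obtain ⟨n, a, h⟩ := IsLocalization.Away.surj π x
  exact exists_algebraMap_eq_of_isIntegral_of_mul_pow hinj π hu n x a hx h

/-- **Normality from normal generic fibre and reduced special fibre.**  `A` a domain, `π ≠ 0`,
`A ⧸ (π)` reduced, `L = A[1/π]` integrally closed  ⇒  `A` integrally closed. -/
theorem isIntegrallyClosed_of_away
    {A : Type*} [CommRing A] [IsDomain A] (π : A) (hπ : π ≠ 0)
    [IsReduced (A ⧸ Ideal.span {π})]
    (L : Type*) [CommRing L] [IsDomain L] [Algebra A L] [IsLocalization.Away π L]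
    [IsIntegrallyClosed L] : IsIntegrallyClosed A := by
  have hπ' : π ∈ nonZeroDivisors A := mem_nonZeroDivisors_of_ne_zero hπ
  have hle : Submonoid.powers π ≤ nonZeroDivisors A := powers_le_nonZeroDivisors_of_mem hπ'
  set K := FractionRing A
  let _ : Algebra L K := IsLocalization.localizationAlgebraOfSubmonoidLe L K _ _ hle
  have : IsScalarTower A L K :=
    IsLocalization.localization_isScalarTower_of_submonoid_le L K _ _ hle
  have : IsFractionRing L K :=
    IsFractionRing.isFractionRing_of_isDomain_of_isLocalization (Submonoid.powers π) L K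
  rw [isIntegrallyClosed_iff K]
  intro x hx
  have hxL : IsIntegral L x := hx.tower_top
  obtain ⟨y, hy⟩ := (isIntegrallyClosed_iff K).mp (inferInstance : IsIntegrallyClosed L) hxL
  have hyA : IsIntegral A y := by
    have := (isIntegral_algHom_iff (IsScalarTower.toAlgHom A L K)
      (IsFractionRing.injective L K) (x := y)).mp
    apply this
    simpa [hy] using hx
  obtain ⟨a, ha⟩ := exists_algebraMap_eq_of_isIntegral_away π hπ' hyA
  refine ⟨a, ?_⟩
  rw [IsScalarTower.algebraMap_apply A L K, ha, hy]

end Fermat.Agent.A2.H612
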